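/-
Back-and-forth systems of tuples preserving first-order formulas yield isomorphisms between
countable structures.
-/
import Mathlib.ModelTheory.Semantics

universe u v w w'

open FirstOrder FirstOrder.Language

namespace FA.Lindstrom

variable {L : Language.{u, v}} {M : Type w} {N : Type w'} [L.Structure M] [L.Structure N]

/-- A stage of the construction: a pair of tuples in the system. -/
private structure Stage (E : ∀ n, (Fin n → M) → (Fin n → N) → Prop) where
  len : ℕ
  left : Fin len → M
  right : Fin len → N
  mem : E len left right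

/-- Countable nonempty structures with a nonempty back-and-forth system which preserves all
formulas are isomorphic. -/
theorem exists_equiv_of_backForth [Countable M] [Countable N] [Nonempty M] [Nonempty N]
    (E : ∀ n, (Fin n → M) → (Fin n → N) → Prop)
    (h0 : E 0 Fin.elim0 Fin.elim0)
    (hagree : ∀ n a b, E n a b → ∀ φ : L.Formula (Fin n), φ.Realize a ↔ φ.Realize b)
    (hforth : ∀ n a b, E n a b → ∀ x, ∃ y, E (n + 1) (Fin.snoc a x) (Fin.snoc b y))
    (hback : ∀ n a b, E n a b → ∀ y, ∃ x, E (n + 1) (Fin.snoc a x) (Fin.snoc b y)) :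
    Nonempty (M ≃[L] N) := by
  classical
  obtain ⟨f, hf⟩ := exists_surjective_nat M
  obtain ⟨g, hg⟩ := exists_surjective_nat N
  choose F hF using hforth
  choose G hG using hback
  -- one step: put `f k` on the left, then `g k` on the right
  let step : ℕ → Stage E → Stage E := fun k s =>
    let y := F _ _ _ s.mem (f k)
    { len := s.len + 1 + 1
      left := Fin.snoc (Fin.snoc s.left (f k)) (G _ _ _ (hF _ _ _ s.mem (f k)) (g k))
      right := Fin.snoc (Fin.snoc s.right y) (g k)
      mem := hG _ _ _ (hF _ _ _ s.mem (f k)) (g k) }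
  have hkeep : ∀ k (s : Stage E) (i : Fin s.len),
      (step k s).left i.castSucc.castSucc = s.left i ∧
        (step k s).right i.castSucc.castSucc = s.right i :=
    fun k s i => ⟨by simp [step], by simp [step]⟩
  have hnewl : ∀ k (s : Stage E), ∃ i, (step k s).left i = f k :=
    fun k s => ⟨(Fin.last s.len).castSucc, by simp [step]⟩
  have hnewr : ∀ k (s : Stage E), ∃ i, (step k s).right i = g k :=
    fun k s => ⟨Fin.last (s.len + 1), by simp [step]⟩
  let S : ℕ → Stage E := fun k => Nat.rec ⟨0, Fin.elim0, Fin.elim0, h0⟩ step k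
  -- the pairs occurring at stage `k`
  let P : ℕ → M → N → Prop := fun k x y => ∃ i, (S k).left i = x ∧ (S k).right i = y
  have hmono1 : ∀ k x y, P k x y → P (k + 1) x y := by
    rintro k x y ⟨i, rfl, rfl⟩
    exact ⟨_, hkeep k (S k) i⟩
  have hmono : ∀ k l, k ≤ l → ∀ x y, P k x y → P l x y := by
    intro k l hkl x y h
    induction hkl with
    | refl => exact h
    | step _ ih => exact hmono1 _ _ _ ih
  have htot1 : ∀ x, ∃ k y, P k x y := by
    intro x
    obtain ⟨k, rfl⟩ := hf x
    obtain ⟨i, hi⟩ := hnewl k (S k)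
    exact ⟨k + 1, _, i, hi, rfl⟩
  have htot2 : ∀ y, ∃ k x, P k x y := by
    intro y
    obtain ⟨k, rfl⟩ := hg y
    obtain ⟨i, hi⟩ := hnewr k (S k)
    exact ⟨k + 1, _, i, rfl, hi⟩
  have hfun : ∀ k l x x' y y', P k x y → P l x' y' → (x = x' ↔ y = y') := by
    intro k l x x' y y' h h'
    obtain ⟨i, hi1, hi2⟩ := hmono k (max k l) (le_max_left _ _) x y h
    obtain ⟨j, hj1, hj2⟩ := hmono l (max k l) (le_max_right _ _) x' y' h'
    have := hagree _ _ _ (S (max k l)).mem (Term.equal (var i) (var j))
    simpa [hi1, hi2, hj1, hj2] using this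
  choose κ ψ hψ using htot1
  choose lv χ hχ using htot2
  have hleft : ∀ x, χ (ψ x) = x := fun x =>
    ((hfun _ _ _ _ _ _ (hψ x) (hχ (ψ x))).2 rfl).symm
  have hright : ∀ y, ψ (χ y) = y := fun y =>
    ((hfun _ _ _ _ _ _ (hχ y) (hψ (χ y))).1 rfl).symm
  -- finitely many points appear at a common stage, with the expected images
  have hcommon : ∀ {m} (xs : Fin m → M), ∃ k, ∃ idx : Fin m → Fin (S k).len,
      ∀ r, (S k).left (idx r) = xs r ∧ (S k).right (idx r) = ψ (xs r) := by
    intro m xs
    refine ⟨Finset.univ.sup fun r => κ (xs r), ?_⟩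
    choose idx hidx using fun r => hmono _ (Finset.univ.sup fun r => κ (xs r))
      (Finset.le_sup (f := fun r => κ (xs r)) (Finset.mem_univ r)) _ _ (hψ (xs r))
    exact ⟨idx, hidx⟩
  refine ⟨{ toFun := ψ, invFun := χ, left_inv := hleft, right_inv := hright,
            map_fun' := ?_, map_rel' := ?_ }⟩
  · intro m op xs
    obtain ⟨k, idx, hidx⟩ := hcommon (Fin.cons (Structure.funMap op xs) xs)
    have := hagree _ _ _ (S k).mem
      (Term.equal (func op fun r => var (idx r.succ)) (var (idx 0)))
    simp only [Formula.realize_equal, Term.realize_func, Term.realize_var] at this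
    rw [(hidx 0).1, (hidx 0).2, funext fun r => (hidx (Fin.succ r)).1,
      funext fun r => (hidx (Fin.succ r)).2] at this
    simp only [Fin.cons_zero, Fin.cons_succ, true_iff] at this
    exact this.symm
  · intro m R xs
    obtain ⟨k, idx, hidx⟩ := hcommon xs
    have := hagree _ _ _ (S k).mem (R.formula fun r => var (idx r))
    simp only [Formula.realize_rel, Term.realize_var] at this
    rw [funext fun r => (hidx r).1, funext fun r => (hidx r).2] at this
    exact this.symm

end FA.Lindstrom
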