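/-
Abstract logics in the sense of Lindström.

An abstract logic assigns to every language a collection of sentences with a satisfaction relation
on (nonempty) structures, invariant under isomorphism.  It is assumed to be closed under negation,
to express every first-order sentence, and to be stable under renaming of symbols, i.e. along
language maps.  Closure under conjunctions and relativisations is not assumed: it is not needed
for the form of Lindström's theorem proved in `Fermat.Agent.Lindstrom.Theorem`.
-/
import Mathlib.ModelTheory.Satisfiability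
import Mathlib.ModelTheory.Encoding

universe u w

open FirstOrder FirstOrder.Language Cardinal

namespace FA.Lindstrom

/-- Nonempty structures of a language, with carrier in the universe of the language. -/
abbrev Str (L : Language.{u, u}) : Type (u + 1) :=
  Theory.ModelType.{u, u, u} (∅ : L.Theory)

/-- The reduct of a bundled structure along a language map. -/
def red {L L' : Language.{u, u}} (ι : L →ᴸ L') (M : Str L') : Str L :=
  letI := ι.reduct M
  Theory.ModelType.of (∅ : L.Theory) M

theorem red_realize {L L' : Language.{u, u}} (ι : L →ᴸ L') (M : Str L') (φ : L.Sentence) :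
    M ⊨ ι.onSentence φ ↔ red ι M ⊨ φ :=
  letI := ι.reduct M
  LHom.realize_onSentence (M := M) ι φ

-- the universe of sentences is deliberately independent of that of languages
set_option linter.checkUnivs false in
/-- An abstract logic: sentences for each language, a satisfaction relation which is invariant
under isomorphism, negations, all first-order sentences, and renamings. -/
structure AbstractLogic where
  /-- The sentences of the logic in a given language. -/
  Sentence : Language.{u, u} → Type w
  /-- Satisfaction of a sentence in a structure. -/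
  Sat : ∀ {L : Language.{u, u}}, Sentence L → Str L → Prop
  sat_iso : ∀ {L : Language.{u, u}} (σ : Sentence L) (M N : Str L),
    (M ≃[L] N) → (Sat σ M ↔ Sat σ N)
  exists_neg : ∀ {L : Language.{u, u}} (σ : Sentence L), ∃ τ, ∀ M, Sat τ M ↔ ¬ Sat σ M
  exists_firstOrder : ∀ {L : Language.{u, u}} (φ : L.Sentence),
    ∃ τ, ∀ M : Str L, Sat τ M ↔ M ⊨ φ
  exists_rename : ∀ {L L' : Language.{u, u}} (ι : L →ᴸ L') (σ : Sentence L),
    ∃ τ, ∀ M : Str L', Sat τ M ↔ Sat σ (red ι M)

namespace AbstractLogic

variable (𝓛 : AbstractLogic.{u, w})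

/-- Countable compactness: in a countable language, a countable set of sentences has a model
provided each of its finite subsets has one. -/
def IsCountablyCompact : Prop :=
  ∀ {L : Language.{u, u}}, Countable L.Symbols → ∀ Γ : Set (𝓛.Sentence L), Γ.Countable →
    (∀ F ⊆ Γ, F.Finite → ∃ M, ∀ σ ∈ F, 𝓛.Sat σ M) → ∃ M, ∀ σ ∈ Γ, 𝓛.Sat σ M

/-- The downward Löwenheim–Skolem property: in a countable language, a satisfiable countable set
of sentences has a countable model. -/
def HasLowenheimSkolem : Prop :=
  ∀ {L : Language.{u, u}}, Countable L.Symbols → ∀ Γ : Set (𝓛.Sentence L), Γ.Countable →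
    (∃ M, ∀ σ ∈ Γ, 𝓛.Sat σ M) → ∃ M : Str L, Countable M ∧ ∀ σ ∈ Γ, 𝓛.Sat σ M

/-- A choice of negation. -/
noncomputable def neg {L : Language.{u, u}} (σ : 𝓛.Sentence L) : 𝓛.Sentence L :=
  (𝓛.exists_neg σ).choose

theorem sat_neg {L : Language.{u, u}} (σ : 𝓛.Sentence L) (M : Str L) :
    𝓛.Sat (𝓛.neg σ) M ↔ ¬ 𝓛.Sat σ M :=
  (𝓛.exists_neg σ).choose_spec M

/-- A choice of translation of first-order sentences. -/
noncomputable def fo {L : Language.{u, u}} (φ : L.Sentence) : 𝓛.Sentence L :=
  (𝓛.exists_firstOrder φ).choose

theorem sat_fo {L : Language.{u, u}} (φ : L.Sentence) (M : Str L) :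
    𝓛.Sat (𝓛.fo φ) M ↔ M ⊨ φ :=
  (𝓛.exists_firstOrder φ).choose_spec M

/-- A choice of renaming of symbols. -/
noncomputable def rename {L L' : Language.{u, u}} (ι : L →ᴸ L') (σ : 𝓛.Sentence L) :
    𝓛.Sentence L' :=
  (𝓛.exists_rename ι σ).choose

theorem sat_rename {L L' : Language.{u, u}} (ι : L →ᴸ L') (σ : 𝓛.Sentence L) (M : Str L') :
    𝓛.Sat (𝓛.rename ι σ) M ↔ 𝓛.Sat σ (red ι M) :=
  (𝓛.exists_rename ι σ).choose_spec M

end AbstractLogic

/-- The sum of two countable languages is countable. -/
theorem countable_sum_symbols (L L' : Language.{u, u}) [h : Countable L.Symbols]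
    [h' : Countable L'.Symbols] : Countable (L.sum L').Symbols := by
  refine mk_le_aleph0_iff.1 (?_ : (L.sum L').card ≤ ℵ₀)
  rw [card_sum, add_le_aleph0, lift_le_aleph0, lift_le_aleph0]
  exact ⟨mk_le_aleph0_iff.2 h, mk_le_aleph0_iff.2 h'⟩

end FA.Lindstrom
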