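/-
First-order logic is an abstract logic, countably compact and with the downward Löwenheim–Skolem
property.  Hence the hypotheses of Lindström's theorem are consistent, and first-order logic is
the strongest logic satisfying them.
-/
import Fermat.Agent.Lindstrom.Logic
import Mathlib.ModelTheory.ElementarySubstructures

universe u

open FirstOrder FirstOrder.Language Cardinal

namespace FA.Lindstrom

/-- First-order logic as an abstract logic. -/
def firstOrderLogic : AbstractLogic.{u, u} where
  Sentence L := L.Sentence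
  Sat φ M := M ⊨ φ
  sat_iso φ _ _ g := StrongHomClass.realize_sentence g φ
  exists_neg φ := ⟨φ.not, fun M => Sentence.realize_not M⟩
  exists_firstOrder φ := ⟨φ, fun _ => Iff.rfl⟩
  exists_rename ι φ := ⟨ι.onSentence φ, fun M => red_realize ι M φ⟩

/-- The compactness theorem, as countable compactness of first-order logic. -/
theorem firstOrderLogic_isCountablyCompact : firstOrderLogic.{u}.IsCountablyCompact := by
  intro L _ Γ _ h
  have hfin : Theory.IsFinitelySatisfiable (Γ : L.Theory) := fun T₀ hT₀ => by
    obtain ⟨M, hM⟩ := h (T₀ : Set L.Sentence) hT₀ T₀.finite_toSet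
    have : M ⊨ (T₀ : L.Theory) := ⟨hM⟩
    exact Theory.Model.isSatisfiable M
  obtain ⟨M⟩ := Theory.isSatisfiable_iff_isFinitelySatisfiable.2 hfin
  exact ⟨Theory.ModelType.of (∅ : L.Theory) M, fun φ hφ =>
    Theory.realize_sentence_of_mem (M := M) (Γ : L.Theory) hφ⟩

/-- The downward Löwenheim–Skolem theorem, for first-order logic as an abstract logic. -/
theorem firstOrderLogic_hasLowenheimSkolem : firstOrderLogic.{u}.HasLowenheimSkolem := by
  rintro L hL Γ - ⟨M, hM⟩
  rcases le_or_gt (#M) ℵ₀ with h | h
  · exact ⟨M, mk_le_aleph0_iff.1 h, hM⟩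
  obtain ⟨S, -, hS⟩ := exists_elementarySubstructure_card_eq L (∅ : Set M)
    (ℵ₀ : Cardinal.{u}) le_rfl (by simp)
    (by simp [Language.card, -mk_sum]) (by simpa using h.le)
  rw [Cardinal.lift_id, Cardinal.lift_id] at hS
  have : Infinite S := Cardinal.infinite_iff.2 hS.ge
  exact ⟨Theory.ModelType.of (∅ : L.Theory) S, mk_le_aleph0_iff.1 hS.le,
    fun φ hφ => (S.realize_sentence φ).2 (hM φ hφ)⟩

end FA.Lindstrom
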