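/-
Lindström's theorem: a logic which is countably compact and has the downward Löwenheim–Skolem
property is no stronger than first-order logic, in every countable language.

The heart of the proof is that such a logic cannot separate elementarily equivalent structures.
Given two countable elementarily equivalent structures on one carrier which are separated by a
sentence `σ`, we work in the language made of two copies of the original one together with a
relation symbol of arity `n + n` for every `n`, and axiomatise that these relations form a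
back-and-forth system preserving all formulas between the two reducts.  Every finite part of these
axioms is satisfiable, interpreting the relations as agreement on finitely many formulas; so by
compactness and Löwenheim–Skolem a countable model exists, whose two reducts are isomorphic
although `σ` separates them.
-/
import Fermat.Agent.Lindstrom.Logic
import Fermat.Agent.Lindstrom.BackForth
import Mathlib.Data.Finset.Preimage

universe u w

open FirstOrder FirstOrder.Language Cardinal

namespace FA.Lindstrom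

section Agreement

variable {L : Language.{u, u}}

/-- Existential quantification of the last of `n + 1` variables. -/
noncomputable def exLast {n : ℕ} (θ : L.Formula (Fin (n + 1))) : L.Formula (Fin n) :=
  (θ.relabel (Fin.lastCases (Sum.inr 0) Sum.inl : Fin (n + 1) → Fin n ⊕ Fin 1)).iExs (Fin 1)

theorem realize_exLast {M : Type*} [L.Structure M] {n : ℕ} (θ : L.Formula (Fin (n + 1)))
    (a : Fin n → M) : (exLast θ).Realize a ↔ ∃ x, θ.Realize (Fin.snoc a x) := by
  rw [exLast, Formula.realize_iExs]
  constructor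
  · rintro ⟨i, hi⟩
    rw [Formula.realize_relabel] at hi
    refine ⟨i 0, (iff_of_eq (congrArg θ.Realize (funext fun j => ?_))).1 hi⟩
    induction j using Fin.lastCases <;> simp
  · rintro ⟨x, hx⟩
    refine ⟨fun _ => x, ?_⟩
    rw [Formula.realize_relabel]
    refine (iff_of_eq (congrArg θ.Realize (funext fun j => ?_))).1 hx
    induction j using Fin.lastCases <;> simp

open Classical in
/-- The formula describing which formulas of `G` hold, namely those in `S`. -/
noncomputable def typeFormula {α : Type*} (G S : Finset (L.Formula α)) : L.Formula α :=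
  Formula.iInf fun φ : G => if (φ : L.Formula α) ∈ S then (φ : L.Formula α) else Formula.not φ

theorem realize_typeFormula {M : Type*} [L.Structure M] {α : Type*}
    (G S : Finset (L.Formula α)) (a : α → M) :
    (typeFormula G S).Realize a ↔ ∀ φ ∈ G, φ.Realize a ↔ φ ∈ S := by
  classical
  rw [typeFormula, Formula.realize_iInf]
  refine ⟨fun h φ hφ => ?_, fun h φ => ?_⟩
  · have := h ⟨φ, hφ⟩
    by_cases hS : φ ∈ S <;> simp_all
  · have := h φ.1 φ.2
    by_cases hS : (φ : L.Formula α) ∈ S <;> simp_all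

open Classical in
/-- Finitely many formulas, agreement on which gives `d` rounds of back and forth, preserving
the formulas in `A`. -/
noncomputable def agreeSet (A : ∀ n, Finset (L.Formula (Fin n))) :
    ℕ → ∀ n, Finset (L.Formula (Fin n))
  | 0, n => A n
  | d + 1, n => A n ∪ (agreeSet A d (n + 1)).powerset.image
      fun S => exLast (typeFormula (agreeSet A d (n + 1)) S)

theorem subset_agreeSet (A : ∀ n, Finset (L.Formula (Fin n))) (d n : ℕ) :
    A n ⊆ agreeSet A d n := by
  classical
  cases d with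
  | zero => exact subset_rfl
  | succ d => exact Finset.subset_union_left

theorem exists_snoc_agree {M N : Type*} [L.Structure M] [L.Structure N]
    (A : ∀ n, Finset (L.Formula (Fin n))) {d n : ℕ} {a : Fin n → M} {b : Fin n → N}
    (h : ∀ φ ∈ agreeSet A (d + 1) n, φ.Realize a ↔ φ.Realize b) (x : M) :
    ∃ y, ∀ φ ∈ agreeSet A d (n + 1),
      φ.Realize (Fin.snoc a x : Fin (n + 1) → M) ↔
        φ.Realize (Fin.snoc b y : Fin (n + 1) → N) := by
  classical
  set G := agreeSet A d (n + 1)
  set S := G.filter fun φ => φ.Realize (Fin.snoc a x : Fin (n + 1) → M)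
  have hmem : exLast (typeFormula G S) ∈ agreeSet A (d + 1) n :=
    Finset.mem_union_right _ (Finset.mem_image.2
      ⟨S, Finset.mem_powerset.2 (Finset.filter_subset _ _), rfl⟩)
  have ha : (exLast (typeFormula G S)).Realize a := by
    rw [realize_exLast]
    refine ⟨x, (realize_typeFormula _ _ _).2 fun φ hφ => ?_⟩
    simp [S, hφ]
  obtain ⟨y, hy⟩ := (realize_exLast _ _).1 ((h _ hmem).1 ha)
  refine ⟨y, fun φ hφ => ?_⟩
  rw [(realize_typeFormula _ _ _).1 hy φ hφ]
  simp [S, hφ]

/-- Between elementarily equivalent structures there are finite approximations to back-and-forth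
systems, preserving any prescribed finite set of formulas. -/
theorem exists_finite_backForth {M N : Type*} [L.Structure M] [L.Structure N]
    (hMN : ∀ φ : L.Sentence, M ⊨ φ ↔ N ⊨ φ) (A : ∀ n, Finset (L.Formula (Fin n))) (K : ℕ) :
    ∃ E : ∀ n, (Fin n → M) → (Fin n → N) → Prop, E 0 Fin.elim0 Fin.elim0 ∧
      (∀ n a b, E n a b → ∀ φ ∈ A n, φ.Realize a ↔ φ.Realize b) ∧
      (∀ n < K, ∀ a b, E n a b → ∀ x, ∃ y, E (n + 1) (Fin.snoc a x) (Fin.snoc b y)) ∧
      (∀ n < K, ∀ a b, E n a b → ∀ y, ∃ x, E (n + 1) (Fin.snoc a x) (Fin.snoc b y)) := by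
  refine ⟨fun n a b => ∀ φ ∈ agreeSet A (K - n) n, φ.Realize a ↔ φ.Realize b, fun φ _ => ?_,
    fun n a b h φ hφ => h φ (subset_agreeSet A _ n hφ), fun n hn a b h x => ?_,
    fun n hn a b h y => ?_⟩
  · have h := hMN (φ.relabel (Fin.elim0 : Fin 0 → Empty))
    simp only [Sentence.Realize, Formula.realize_relabel] at h
    convert h using 2
  · obtain ⟨d, hd⟩ : ∃ d, K - n = d + 1 := ⟨K - (n + 1), by omega⟩
    have hd' : K - (n + 1) = d := by omega
    beta_reduce at h ⊢
    rw [hd] at h
    rw [hd']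
    exact exists_snoc_agree A h x
  · obtain ⟨d, hd⟩ : ∃ d, K - n = d + 1 := ⟨K - (n + 1), by omega⟩
    have hd' : K - (n + 1) = d := by omega
    beta_reduce at h ⊢
    rw [hd] at h
    rw [hd']
    obtain ⟨x, hx⟩ := exists_snoc_agree A (fun φ hφ => (h φ hφ).symm) y
    exact ⟨x, fun φ hφ => (hx φ hφ).symm⟩

end Agreement

section Pair

variable (L : Language.{u, u})

/-- Relation symbols of arity `n + n`, one for each `n`. -/
def pairLang : Language.{u, u} :=
  ⟨fun _ => PEmpty, fun m => ULift.{u} {n : ℕ // n + n = m}⟩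

/-- Two copies of `L` with the relations of a back-and-forth system. -/
abbrev doubleLang : Language.{u, u} := (L.sum L).sum pairLang.{u}

theorem countable_doubleLang [Countable L.Symbols] : Countable (doubleLang L).Symbols := by
  have : Countable pairLang.{u}.Symbols := by
    unfold Language.Symbols pairLang
    infer_instance
  have := countable_sum_symbols L L
  exact countable_sum_symbols (L.sum L) pairLang

variable {L}

/-- The first copy. -/
def copy₁ : L →ᴸ doubleLang L := LHom.sumInl.comp LHom.sumInl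

/-- The second copy. -/
def copy₂ : L →ᴸ doubleLang L := LHom.sumInl.comp LHom.sumInr

/-- The relation between `n`-tuples. -/
def pairRel (n : ℕ) : (doubleLang L).Relations (n + n) := Sum.inr (ULift.up ⟨n, rfl⟩)

/-- The atomic formula saying that the two halves of the variables are related. -/
def pairFormula (n : ℕ) : (doubleLang L).Formula (Fin (n + n)) := (pairRel n).formula var

/-- Universal closure of a formula in finitely many variables. -/
noncomputable def allClosure {L' : Language.{u, u}} {k : ℕ} (φ : L'.Formula (Fin k)) :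
    L'.Sentence :=
  (φ.relabel (Sum.inr : Fin k → Empty ⊕ Fin k)).iAlls (Fin k)

theorem realize_allClosure {L' : Language.{u, u}} {k : ℕ} (φ : L'.Formula (Fin k))
    {M : Type*} [L'.Structure M] : M ⊨ allClosure φ ↔ ∀ v : Fin k → M, φ.Realize v := by
  simp [allClosure, Sentence.Realize, Function.comp_def]

/-- The tuple of variables of a pair of extended tuples: the two new entries are the two
quantified variables. -/
def extVars (n : ℕ) (p q : (Fin (n + n) ⊕ Fin 1) ⊕ Fin 1) :
    Fin ((n + 1) + (n + 1)) → (Fin (n + n) ⊕ Fin 1) ⊕ Fin 1 :=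
  Fin.append (Fin.snoc (fun i => Sum.inl (Sum.inl (Fin.castAdd n i))) p)
    (Fin.snoc (fun i => Sum.inl (Sum.inl (Fin.natAdd n i))) q)

variable (L) in
/-- The index of an axiom. -/
inductive Idx : Type u
  | zero
  | agree (n : ℕ) (φ : L.Formula (Fin n))
  | forth (n : ℕ)
  | back (n : ℕ)

/-- The axioms of a back-and-forth system. -/
noncomputable def pairAxiom : Idx L → (doubleLang L).Sentence
  | .zero => (pairRel 0).formula fun i => Fin.elim0 (i : Fin 0)
  | .agree n φ => allClosure ((pairFormula n).imp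
      (((copy₁.onFormula φ).relabel (Fin.castAdd n)).iff
        ((copy₂.onFormula φ).relabel (Fin.natAdd n))))
  | .forth n => allClosure ((pairFormula n).imp
      ((((pairRel (n + 1)).formula fun i =>
        var (extVars n (Sum.inl (Sum.inr 0)) (Sum.inr 0) i)).iExs (Fin 1)).iAlls (Fin 1)))
  | .back n => allClosure ((pairFormula n).imp
      ((((pairRel (n + 1)).formula fun i =>
        var (extVars n (Sum.inr 0) (Sum.inl (Sum.inr 0)) i)).iExs (Fin 1)).iAlls (Fin 1)))

/-- The system of relations in a structure of the doubled language. -/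
def rel (M : Str (doubleLang L)) (n : ℕ) (a b : Fin n → M) : Prop :=
  Structure.RelMap (pairRel (L := L) n) (Fin.append a b)

theorem comp_extVars_forth {M : Type*} {n : ℕ} (a b : Fin n → M) (x y : Fin 1 → M) :
    (fun i => Sum.elim (Sum.elim (Fin.append a b) x) y
        (extVars n (Sum.inl (Sum.inr 0)) (Sum.inr 0) i)) =
      Fin.append (Fin.snoc a (x 0) : Fin (n + 1) → M) (Fin.snoc b (y 0)) := by
  funext i
  induction i using Fin.addCases with
  | left i => induction i using Fin.lastCases <;>
      simp [extVars, -Fin.natAdd_eq_addNat, -Fin.natAdd_last]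
  | right i => induction i using Fin.lastCases <;>
      simp [extVars, -Fin.natAdd_eq_addNat, -Fin.natAdd_last]

theorem comp_extVars_back {M : Type*} {n : ℕ} (a b : Fin n → M) (x y : Fin 1 → M) :
    (fun i => Sum.elim (Sum.elim (Fin.append a b) x) y
        (extVars n (Sum.inr 0) (Sum.inl (Sum.inr 0)) i)) =
      Fin.append (Fin.snoc a (y 0) : Fin (n + 1) → M) (Fin.snoc b (x 0)) := by
  funext i
  induction i using Fin.addCases with
  | left i => induction i using Fin.lastCases <;>
      simp [extVars, -Fin.natAdd_eq_addNat, -Fin.natAdd_last]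
  | right i => induction i using Fin.lastCases <;>
      simp [extVars, -Fin.natAdd_eq_addNat, -Fin.natAdd_last]

theorem forall_append_iff {M : Type*} {n : ℕ} {p : (Fin (n + n) → M) → Prop} :
    (∀ v, p v) ↔ ∀ a b : Fin n → M, p (Fin.append a b) :=
  ⟨fun h _ _ => h _, fun h v => Fin.append_castAdd_natAdd (f := v) ▸ h _ _⟩

theorem realize_pairFormula (M : Str (doubleLang L)) {n : ℕ} (a b : Fin n → M) :
    (pairFormula (L := L) n).Realize (Fin.append a b) ↔ rel M n a b := by
  simp [pairFormula, rel]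

theorem realize_zero (M : Str (doubleLang L)) :
    M ⊨ pairAxiom (Idx.zero (L := L)) ↔ rel M 0 Fin.elim0 Fin.elim0 := by
  simp only [pairAxiom, Sentence.Realize, rel, Formula.realize_rel]
  exact iff_of_eq (congrArg _ (funext fun i => Fin.elim0 (i : Fin 0)))

theorem realize_agree (M : Str (doubleLang L)) {n : ℕ} (φ : L.Formula (Fin n)) :
    M ⊨ pairAxiom (Idx.agree n φ) ↔ ∀ a b : Fin n → M, rel M n a b →
      (@Formula.Realize L M (red copy₁ M).struc _ φ a ↔
        @Formula.Realize L M (red copy₂ M).struc _ φ b) := by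
  have h₁ : ∀ a : Fin n → M, (copy₁.onFormula φ).Realize a ↔
      @Formula.Realize L M (red copy₁ M).struc _ φ a := fun a =>
    letI := (copy₁ (L := L)).reduct M
    LHom.realize_onBoundedFormula (M := M) _ φ
  have h₂ : ∀ a : Fin n → M, (copy₂.onFormula φ).Realize a ↔
      @Formula.Realize L M (red copy₂ M).struc _ φ a := fun a =>
    letI := (copy₂ (L := L)).reduct M
    LHom.realize_onBoundedFormula (M := M) _ φ
  rw [pairAxiom, realize_allClosure, forall_append_iff]
  simp [realize_pairFormula, Function.comp_def, h₁, h₂, -Fin.natAdd_eq_addNat]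

theorem realize_forth (M : Str (doubleLang L)) (n : ℕ) :
    M ⊨ pairAxiom (Idx.forth (L := L) n) ↔ ∀ a b : Fin n → M, rel M n a b →
      ∀ x, ∃ y, rel M (n + 1) (Fin.snoc a x) (Fin.snoc b y) := by
  rw [pairAxiom, realize_allClosure, forall_append_iff]
  simp only [Formula.realize_imp, Formula.realize_iAlls, Formula.realize_iExs,
    Formula.realize_rel, Term.realize_var, realize_pairFormula, comp_extVars_forth]
  exact ⟨fun h a b hab x => let ⟨y, hy⟩ := h a b hab fun _ => x; ⟨y 0, hy⟩,
    fun h a b hab x => let ⟨y, hy⟩ := h a b hab (x 0); ⟨fun _ => y, hy⟩⟩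

theorem realize_back (M : Str (doubleLang L)) (n : ℕ) :
    M ⊨ pairAxiom (Idx.back (L := L) n) ↔ ∀ a b : Fin n → M, rel M n a b →
      ∀ y, ∃ x, rel M (n + 1) (Fin.snoc a x) (Fin.snoc b y) := by
  rw [pairAxiom, realize_allClosure, forall_append_iff]
  simp only [Formula.realize_imp, Formula.realize_iAlls, Formula.realize_iExs,
    Formula.realize_rel, Term.realize_var, realize_pairFormula, comp_extVars_back]
  exact ⟨fun h a b hab x => let ⟨y, hy⟩ := h a b hab fun _ => x; ⟨y 0, hy⟩,
    fun h a b hab x => let ⟨y, hy⟩ := h a b hab (x 0); ⟨fun _ => y, hy⟩⟩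

/-- The structure of the doubled language built from two structures on one carrier and a system
of relations. -/
@[reducible]
def doubleStructure {X : Type u} (S₁ S₂ : L.Structure X)
    (E : ∀ n, (Fin n → X) → (Fin n → X) → Prop) : (doubleLang L).Structure X where
  funMap f x := match f with
    | Sum.inl (Sum.inl f) => S₁.funMap f x
    | Sum.inl (Sum.inr f) => S₂.funMap f x
    | Sum.inr f => PEmpty.elim f
  RelMap r x := match r with
    | Sum.inl (Sum.inl r) => S₁.RelMap r x
    | Sum.inl (Sum.inr r) => S₂.RelMap r x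
    | Sum.inr ⟨⟨n, h⟩⟩ => E n (fun i => x (Fin.cast h (Fin.castAdd n i)))
        (fun i => x (Fin.cast h (Fin.natAdd n i)))

end Pair

variable {L : Language.{u, u}}

/-- Two structures on the same carrier, packed as a structure of the doubled language. -/
def double {X : Type u} [Nonempty X] (S₁ S₂ : L.Structure X)
    (E : ∀ n, (Fin n → X) → (Fin n → X) → Prop) : Str (doubleLang L) :=
  letI := doubleStructure S₁ S₂ E
  Theory.ModelType.of (∅ : (doubleLang L).Theory) X

theorem rel_double {X : Type u} [Nonempty X] (S₁ S₂ : L.Structure X)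
    (E : ∀ n, (Fin n → X) → (Fin n → X) → Prop) (n : ℕ) (a b : Fin n → X) :
    rel (double S₁ S₂ E) n a b ↔ E n a b :=
  show E n (fun i => Fin.append a b (Fin.castAdd n i))
      (fun i => Fin.append a b (Fin.natAdd n i)) ↔ E n a b by
    simp [-Fin.natAdd_eq_addNat]

variable (𝓛 : AbstractLogic.{u, w})

/-- Every finite set of the axioms, with a separation of two structures on a common carrier, is
satisfiable. -/
theorem exists_double_model {X : Type u} [Nonempty X] (S₁ S₂ : L.Structure X)
    (h : ∀ φ : L.Sentence,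
      @Sentence.Realize L X S₁ φ ↔ @Sentence.Realize L X S₂ φ) (s : Finset (Idx L)) :
    ∃ E, ∀ i ∈ s, double S₁ S₂ E ⊨ pairAxiom i := by
  classical
  let A : ∀ n, Finset (L.Formula (Fin n)) := fun n =>
    (s.biUnion fun i => match i with
      | .agree m φ => ({⟨m, φ⟩} : Finset (Σ m, L.Formula (Fin m)))
      | _ => ∅).preimage (fun φ => ⟨n, φ⟩)
        fun _ _ _ _ h => eq_of_heq (Sigma.mk.inj h).2
  let K : ℕ := (s.sup fun i => match i with
      | .forth m => m
      | .back m => m
      | _ => 0) + 1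
  obtain ⟨E, hE0, hEagree, hEforth, hEback⟩ :=
    @exists_finite_backForth L X X S₁ S₂ h A K
  refine ⟨E, fun i hi => ?_⟩
  cases i with
  | zero => exact (realize_zero _).2 ((rel_double ..).2 hE0)
  | agree n φ =>
    refine (realize_agree _ φ).2 fun a b hab => hEagree n a b ((rel_double ..).1 hab) φ ?_
    simp only [A, Finset.mem_preimage, Finset.mem_biUnion]
    exact ⟨_, hi, Finset.mem_singleton_self _⟩
  | forth n =>
    have hn : n < K := Nat.lt_succ_of_le (Finset.le_sup (f := fun i : Idx L => match i with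
      | .forth m => m
      | .back m => m
      | _ => 0) hi)
    refine (realize_forth _ n).2 fun a b hab x => ?_
    obtain ⟨y, hy⟩ := hEforth n hn a b ((rel_double ..).1 hab) x
    exact ⟨y, (rel_double ..).2 hy⟩
  | back n =>
    have hn : n < K := Nat.lt_succ_of_le (Finset.le_sup (f := fun i : Idx L => match i with
      | .forth m => m
      | .back m => m
      | _ => 0) hi)
    refine (realize_back _ n).2 fun a b hab y => ?_
    obtain ⟨x, hx⟩ := hEback n hn a b ((rel_double ..).1 hab) y
    exact ⟨x, (rel_double ..).2 hx⟩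

variable {𝓛}

/-- A countable structure satisfying a sentence of the logic and elementarily equivalent to a
given one satisfying it. -/
theorem exists_countable_equiv (hls : 𝓛.HasLowenheimSkolem) [hL : Countable L.Symbols]
    {σ : 𝓛.Sentence L} {A : Str L} (hA : 𝓛.Sat σ A) :
    ∃ A' : Str L, Countable A' ∧ 𝓛.Sat σ A' ∧ ∀ φ : L.Sentence, A' ⊨ φ ↔ A ⊨ φ := by
  obtain ⟨A', hc, hA'⟩ := hls hL (insert σ (𝓛.fo '' L.completeTheory A))
    (((Set.to_countable _).image _).insert σ)
    ⟨A, Set.forall_mem_insert.2 ⟨hA, Set.forall_mem_image.2 fun φ hφ => (𝓛.sat_fo φ A).2 hφ⟩⟩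
  refine ⟨A', hc, hA' _ (Set.mem_insert ..), fun φ => ?_⟩
  have key : ∀ ψ : L.Sentence, A ⊨ ψ → A' ⊨ ψ := fun ψ hψ =>
    (𝓛.sat_fo ψ A').1 (hA' _ (Set.mem_insert_of_mem _ (Set.mem_image_of_mem _ hψ)))
  refine ⟨fun h => ?_, key φ⟩
  by_contra hφ
  exact key φ.not hφ h

/-- Countable elementarily equivalent structures have the same cardinality. -/
theorem mk_eq_of_elementarilyEquivalent {A B : Str L} [Countable A] [Countable B]
    (h : ∀ φ : L.Sentence, A ⊨ φ ↔ B ⊨ φ) : #A = #B := by
  have hn : ∀ n : ℕ, (n : Cardinal) ≤ #A ↔ (n : Cardinal) ≤ #B := fun n => by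
    rw [← Sentence.realize_cardGe L, ← Sentence.realize_cardGe L]
    exact h _
  refine le_antisymm ?_ ?_
  · rcases lt_or_ge (#A) ℵ₀ with hA | hA
    · obtain ⟨k, hk⟩ := lt_aleph0.1 hA
      exact hk ▸ (hn k).1 hk.ge
    · exact mk_le_aleph0.trans (aleph0_le.2 fun n => (hn n).1 (natCast_le_aleph0.trans hA))
  · rcases lt_or_ge (#B) ℵ₀ with hB | hB
    · obtain ⟨k, hk⟩ := lt_aleph0.1 hB
      exact hk ▸ (hn k).2 hk.ge
    · exact mk_le_aleph0.trans (aleph0_le.2 fun n => (hn n).2 (natCast_le_aleph0.trans hB))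

/-- A countably compact logic with the Löwenheim–Skolem property does not separate two
elementarily equivalent structures on the same countable carrier. -/
theorem sat_of_same_carrier (hc : 𝓛.IsCountablyCompact) (hls : 𝓛.HasLowenheimSkolem)
    [Countable L.Symbols] (σ : 𝓛.Sentence L) {X : Type u} [Nonempty X] (S₁ S₂ : L.Structure X)
    (h : ∀ φ : L.Sentence, @Sentence.Realize L X S₁ φ ↔ @Sentence.Realize L X S₂ φ)
    (h₁ : 𝓛.Sat σ (letI := S₁; Theory.ModelType.of (∅ : L.Theory) X)) :
    𝓛.Sat σ (letI := S₂; Theory.ModelType.of (∅ : L.Theory) X) := by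
  classical
  by_contra h₂
  have hD := countable_doubleLang L
  let Γ : Set (𝓛.Sentence (doubleLang L)) :=
    insert (𝓛.rename copy₁ σ) (insert (𝓛.rename copy₂ (𝓛.neg σ))
      (𝓛.fo '' Set.range (pairAxiom (L := L))))
  have hΓ : Γ.Countable :=
    (((Set.to_countable _).image _).insert _).insert _
  obtain ⟨M, hM⟩ := hc hD Γ hΓ fun F hF hfin => by
    obtain ⟨s, hs⟩ : ∃ s : Finset (Idx L), ∀ σ' ∈ F,
        σ' = 𝓛.rename copy₁ σ ∨ σ' = 𝓛.rename copy₂ (𝓛.neg σ) ∨
          ∃ i ∈ s, σ' = 𝓛.fo (pairAxiom i) := by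
      choose idx hidx using fun σ' : ↥(F ∩ (𝓛.fo '' Set.range (pairAxiom (L := L)))) =>
        show ∃ i, 𝓛.fo (pairAxiom i) = σ'.1 by
          obtain ⟨_, ⟨i, rfl⟩, hi⟩ := σ'.2.2
          exact ⟨i, hi⟩
      have := (hfin.inter_of_left (𝓛.fo '' Set.range (pairAxiom (L := L)))).fintype
      refine ⟨Finset.univ.image idx, fun σ' hσ' => ?_⟩
      rcases hF hσ' with rfl | rfl | h'
      · exact Or.inl rfl
      · exact Or.inr (Or.inl rfl)
      · exact Or.inr (Or.inr ⟨idx ⟨σ', hσ', h'⟩,
          Finset.mem_image_of_mem _ (Finset.mem_univ _), (hidx ⟨σ', hσ', h'⟩).symm⟩)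
    obtain ⟨E, hE⟩ := exists_double_model S₁ S₂ h s
    refine ⟨double S₁ S₂ E, fun σ' hσ' => ?_⟩
    rcases hs σ' hσ' with rfl | rfl | ⟨i, hi, rfl⟩
    · rw [𝓛.sat_rename]
      exact h₁
    · rw [𝓛.sat_rename, 𝓛.sat_neg]
      exact h₂
    · exact (𝓛.sat_fo _ _).2 (hE i hi)
  obtain ⟨M, hMc, hM⟩ := hls hD Γ hΓ ⟨M, hM⟩
  have hσ₁ : 𝓛.Sat σ (red copy₁ M) :=
    (𝓛.sat_rename _ σ M).1 (hM _ (Set.mem_insert ..))
  have hσ₂ : ¬ 𝓛.Sat σ (red copy₂ M) :=
    (𝓛.sat_neg σ _).1 ((𝓛.sat_rename _ _ M).1
      (hM _ (Set.mem_insert_of_mem _ (Set.mem_insert ..))))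
  have hax : ∀ i : Idx L, M ⊨ pairAxiom i := fun i =>
    (𝓛.sat_fo _ M).1 (hM _ (Set.mem_insert_of_mem _ (Set.mem_insert_of_mem _
      (Set.mem_image_of_mem _ (Set.mem_range_self i)))))
  have : Countable (red (copy₁ (L := L)) M) := hMc
  have : Countable (red (copy₂ (L := L)) M) := hMc
  obtain ⟨g⟩ := exists_equiv_of_backForth (L := L) (M := red copy₁ M) (N := red copy₂ M)
    (rel M) ((realize_zero M).1 (hax _))
    (fun n a b hab φ => (realize_agree M φ).1 (hax _) a b hab)
    (fun n => (realize_forth M n).1 (hax _)) (fun n => (realize_back M n).1 (hax _))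
  exact hσ₂ ((𝓛.sat_iso σ _ _ g).1 hσ₁)

/-- A countably compact logic with the Löwenheim–Skolem property does not separate elementarily
equivalent structures. -/
theorem sat_iff_of_elementarilyEquivalent (hc : 𝓛.IsCountablyCompact)
    (hls : 𝓛.HasLowenheimSkolem) [Countable L.Symbols] (σ : 𝓛.Sentence L) {A B : Str L}
    (h : ∀ φ : L.Sentence, A ⊨ φ ↔ B ⊨ φ) : 𝓛.Sat σ A ↔ 𝓛.Sat σ B := by
  suffices H : ∀ {A B : Str L}, (∀ φ : L.Sentence, A ⊨ φ ↔ B ⊨ φ) → 𝓛.Sat σ A → 𝓛.Sat σ B from
    ⟨H h, H fun φ => (h φ).symm⟩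
  intro A B h hA
  by_contra hB
  obtain ⟨A', hAc, hA', hAA⟩ := exists_countable_equiv hls hA
  obtain ⟨B', hBc, hB', hBB⟩ :=
    exists_countable_equiv hls (σ := 𝓛.neg σ) ((𝓛.sat_neg σ B).2 hB)
  have hAB : ∀ φ : L.Sentence, A' ⊨ φ ↔ B' ⊨ φ := fun φ =>
    (hAA φ).trans ((h φ).trans (hBB φ).symm)
  obtain ⟨e⟩ := Cardinal.eq.1 (mk_eq_of_elementarilyEquivalent hAB).symm
  have g : B' ≃[L] Theory.ModelType.equivInduced e := e.inducedStructureEquiv
  refine (𝓛.sat_neg σ B').1 hB' ((𝓛.sat_iso σ B' _ g).2 ?_)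
  exact sat_of_same_carrier hc hls σ A'.struc (Theory.ModelType.equivInduced e).struc
    (fun φ => (hAB φ).trans (StrongHomClass.realize_sentence g φ)) hA'

/-- **Lindström's theorem.** If an abstract logic is countably compact and has the downward
Löwenheim–Skolem property, then in every countable language each of its sentences is equivalent
to a first-order sentence. -/
theorem lindstrom (hc : 𝓛.IsCountablyCompact) (hls : 𝓛.HasLowenheimSkolem)
    [hL : Countable L.Symbols] (σ : 𝓛.Sentence L) :
    ∃ φ : L.Sentence, ∀ M : Str L, 𝓛.Sat σ M ↔ M ⊨ φ := by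
  classical
  let T : L.Theory := {φ | ∀ M, 𝓛.Sat σ M → M ⊨ φ}
  -- `σ` holds in every model of its first-order consequences
  have hT : ∀ B : Str L, (∀ φ ∈ T, B ⊨ φ) → 𝓛.Sat σ B := by
    intro B hB
    obtain ⟨A, hA⟩ := hc hL (insert σ (𝓛.fo '' L.completeTheory B))
      (((Set.to_countable _).image _).insert σ) fun F hF hfin => by
      obtain ⟨s, hs, hsF⟩ : ∃ s : Finset L.Sentence, (∀ φ ∈ s, B ⊨ φ) ∧
          ∀ σ' ∈ F, σ' = σ ∨ ∃ φ ∈ s, σ' = 𝓛.fo φ := by
        obtain ⟨s, hs, hsim⟩ := Finset.subset_set_image_iff.1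
          (show ((hfin.subset (Set.sdiff_subset (t := {σ}))).toFinset : Set _) ⊆
            𝓛.fo '' L.completeTheory B by
            intro σ' hσ'
            rw [Set.Finite.coe_toFinset] at hσ'
            exact (hF hσ'.1).resolve_left hσ'.2)
        refine ⟨s, fun φ hφ => hs hφ, fun σ' hσ' => ?_⟩
        by_cases hσσ : σ' = σ
        · exact Or.inl hσσ
        · have : σ' ∈ s.image 𝓛.fo := hsim ▸ (Set.Finite.mem_toFinset _).2 ⟨hσ', hσσ⟩
          obtain ⟨φ, hφ, rfl⟩ := Finset.mem_image.1 this
          exact Or.inr ⟨φ, hφ, rfl⟩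
      by_contra! hno
      have hmem : (Formula.iInf fun φ : s => (φ : L.Sentence)).not ∈ T := fun M hMσ => by
        rw [Sentence.realize_not]
        intro hM
        obtain ⟨σ', hσ', hnot⟩ := hno M
        rcases hsF σ' hσ' with rfl | ⟨φ, hφ, rfl⟩
        · exact hnot hMσ
        · exact hnot ((𝓛.sat_fo φ M).2 (Formula.realize_iInf.1 hM ⟨φ, hφ⟩))
      exact hB _ hmem (Formula.realize_iInf.2 fun φ => hs φ.1 φ.2)
    have hAσ : 𝓛.Sat σ A := hA _ (Set.mem_insert ..)
    have hAB : ∀ ψ : L.Sentence, B ⊨ ψ → A ⊨ ψ := fun ψ hψ =>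
      (𝓛.sat_fo ψ A).1 (hA _ (Set.mem_insert_of_mem _ (Set.mem_image_of_mem _ hψ)))
    refine (sat_iff_of_elementarilyEquivalent hc hls σ fun φ => ⟨fun h => ?_, hAB φ⟩).1 hAσ
    by_contra hφ
    exact hAB φ.not hφ h
  -- so finitely many of them suffice
  by_contra! hno
  obtain ⟨B, hB⟩ := hc hL (insert (𝓛.neg σ) (𝓛.fo '' T))
    (((Set.to_countable _).image _).insert _) fun F hF hfin => by
    obtain ⟨s, hs, hsim⟩ := Finset.subset_set_image_iff.1
      (show ((hfin.subset (Set.sdiff_subset (t := {𝓛.neg σ}))).toFinset : Set _) ⊆ 𝓛.fo '' T by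
        intro σ' hσ'
        rw [Set.Finite.coe_toFinset] at hσ'
        exact (hF hσ'.1).resolve_left hσ'.2)
    obtain ⟨M, hM⟩ := hno (Formula.iInf fun φ : s => (φ : L.Sentence))
    rcases hM with ⟨hMσ, hMφ⟩ | ⟨hMσ, hMφ⟩
    · exact absurd (Formula.realize_iInf.2 fun φ : s => hs φ.2 M hMσ) hMφ
    · refine ⟨M, fun σ' hσ' => ?_⟩
      by_cases hσσ : σ' = 𝓛.neg σ
      · exact hσσ ▸ (𝓛.sat_neg σ M).2 hMσ
      · have : σ' ∈ s.image 𝓛.fo := hsim ▸ (Set.Finite.mem_toFinset _).2 ⟨hσ', hσσ⟩
        obtain ⟨φ, hφ, rfl⟩ := Finset.mem_image.1 this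
        exact (𝓛.sat_fo φ M).2 (Formula.realize_iInf.1 hMφ ⟨φ, hφ⟩)
  exact (𝓛.sat_neg σ B).1 (hB _ (Set.mem_insert ..))
    (hT B fun φ hφ => (𝓛.sat_fo φ B).1
      (hB _ (Set.mem_insert_of_mem _ (Set.mem_image_of_mem _ hφ))))

end FA.Lindstrom
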